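import Fermat.Agent.S49.Forms

set_option autoImplicit false

namespace Fermat.Agent.S49

open CuspForm CongruenceSubgroup ModularFormClass UpperHalfPlane EisensteinWeightOne

variable {N : ℕ} [NeZero N]

/-- The full weight two Hecke algebra. -/
abbrev TT (N : ℕ) [NeZero N] := CuspForm.heckeAlgebra N 2 (∅ : Set ℕ)

/-- The tautological action. -/
noncomputable def phi (N : ℕ) [NeZero N] :
    TT N →+* Module.End ℂ (CuspForm (Gamma0 N) 2) :=
  (CuspForm.heckeAlgebra N 2 (∅ : Set ℕ)).val.toRingHom

theorem phi_apply (t : TT N) : phi N t = (t : Module.End ℂ (CuspForm (Gamma0 N) 2)) := rfl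

theorem phi_injective : Function.Injective (phi N) := Subtype.val_injective

theorem phi_mem_lattice (t : TT N) {f : CuspForm (Gamma0 N) 2}
    (hf : f ∈ CuspForm.intLattice N 2) : phi N t f ∈ CuspForm.intLattice N 2 :=
  CuspForm.mem_intLattice_of_mem_heckeAlgebra (by norm_num) t.2 hf

theorem finite_TT (h : CuspForm.HasIntegralBasis N) : Module.Finite ℤ (TT N) := by
  classical
  obtain ⟨G, hG⟩ := CuspForm.intLattice_fg N 2
  have hLnoeth : IsNoetherian ℤ (CuspForm.intLattice N 2) :=
    isNoetherian_of_fg_of_noetherian _ (CuspForm.intLattice_fg N 2)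
  have hGmem : ∀ g : G, (g : CuspForm (Gamma0 N) 2) ∈ CuspForm.intLattice N 2 := fun g =>
    hG ▸ Submodule.subset_span g.2
  let ev : TT N →ₗ[ℤ] (G → CuspForm.intLattice N 2) :=
    { toFun := fun t g => ⟨phi N t g, phi_mem_lattice t (hGmem g)⟩
      map_add' := by
        intro s t
        funext g
        apply Subtype.ext
        simp [map_add]
      map_smul' := by
        intro c t
        funext g
        apply Subtype.ext
        simp }
  have hinj : Function.Injective ev := by
    rw [injective_iff_map_eq_zero]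
    intro t ht
    apply phi_injective
    rw [map_zero]
    have h0 : ∀ g ∈ G, phi N t g = 0 := by
      intro g hg
      have := congrFun ht ⟨g, hg⟩
      exact congrArg Subtype.val this
    have h1 : ∀ f ∈ CuspForm.intLattice N 2, phi N t f = 0 := by
      intro f hf
      rw [← hG] at hf
      induction hf using Submodule.span_induction with
      | mem x hx => exact h0 x hx
      | zero => simp
      | add x y _ _ hx hy => rw [map_add, hx, hy, add_zero]
      | smul a x _ hx => rw [map_zsmul, hx, smul_zero]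
    apply LinearMap.ext
    intro f
    have hf : f ∈ Submodule.span ℂ (CuspForm.qIntegralSet N) := h ▸ Submodule.mem_top
    rw [qIntegralSet_eq] at hf
    induction hf using Submodule.span_induction with
    | mem x hx => exact h1 x hx
    | zero => simp
    | add x y _ _ hx hy => rw [map_add, hx, hy]; simp
    | smul a x _ hx => rw [map_smul, hx]; simp
  exact Module.Finite.of_injective ev hinj

/-- The ideal of Hecke operators sending `f₀` into three times the integral lattice. -/
noncomputable def congIdeal (f₀ : CuspForm (Gamma0 N) 2) : Ideal (TT N) where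
  carrier := {t | ∃ g ∈ CuspForm.intLattice N 2, phi N t f₀ = (3 : ℂ) • g}
  zero_mem' := ⟨0, zero_mem _, by simp⟩
  add_mem' := by
    rintro s t ⟨g, hg, h1⟩ ⟨g', hg', h2⟩
    exact ⟨g + g', add_mem hg hg', by rw [map_add, LinearMap.add_apply, h1, h2, smul_add]⟩
  smul_mem' := by
    rintro s t ⟨g, hg, h1⟩
    exact ⟨phi N s g, phi_mem_lattice s hg, by
      rw [smul_eq_mul, map_mul, Module.End.mul_apply, h1, map_smul]⟩

theorem mem_congIdeal {f₀ : CuspForm (Gamma0 N) 2} {t : TT N} :
    t ∈ congIdeal f₀ ↔ ∃ g ∈ CuspForm.intLattice N 2, phi N t f₀ = (3 : ℂ) • g := Iff.rfl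

omit [NeZero N] in
/-- A form all of whose coefficients are integers divisible by three is three times a lattice
element. -/
theorem exists_eq_three_smul (u : CuspForm (Gamma0 N) 2)
    (hu : ∀ n : ℕ, ∃ m : ℤ, qCoeff u n = ((3 * m : ℤ) : ℂ)) :
    ∃ g ∈ CuspForm.intLattice N 2, u = (3 : ℂ) • g := by
  refine ⟨(3 : ℂ)⁻¹ • u, ?_, ?_⟩
  · rw [mem_intLattice_iff']
    intro n
    obtain ⟨m, hm⟩ := hu n
    refine ⟨m, ?_⟩
    rw [qCoeff_smul', hm]
    push_cast
    field_simp
  · rw [smul_smul, mul_inv_cancel₀ (by norm_num), one_smul]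

theorem bridge_coeff_congr (a : ℕ → ℤ) (n : ℕ) :
    (3 : ℤ) ∣ (bridgeProduct a).coeff n - a n := by
  have hE : e1Chi3In ℤ = 1 + PowerSeries.C (3 : ℤ) *
      PowerSeries.mk (fun n => if n = 0 then 0 else 2 * sigmaChi n) := by
    ext k
    simp only [e1Chi3In, e1Chi3, PowerSeries.coeff_map, PowerSeries.coeff_mk, map_add,
      PowerSeries.coeff_C_mul, PowerSeries.coeff_one]
    split_ifs <;> simp <;> ring
  rw [bridgeProduct, hE, mul_add, mul_one, map_add, PowerSeries.coeff_mk, mul_left_comm,
    PowerSeries.coeff_C_mul]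
  rw [add_sub_cancel_left]
  exact Dvd.intro _ rfl

theorem chi_congr (ℓ : ℕ) : (3 : ℤ) ∣ (ℓ : ℤ) - chiNegThree ℓ := by
  unfold chiNegThree
  split_ifs <;> omega

end Fermat.Agent.S49
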