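import Mathlib

set_option autoImplicit false

namespace Fermat.Agent.S49

/-- A commuting family of endomorphisms (given by a ring hom from a commutative ring) stabilising a
nonzero finite-dimensional complex subspace has a common eigenvector in it. -/
theorem exists_common_eigenvector {T V : Type*} [CommRing T] [AddCommGroup V] [Module ℂ V]
    (φ : T →+* Module.End ℂ V) :
    ∀ (n : ℕ) (U : Submodule ℂ V), FiniteDimensional ℂ U → Module.finrank ℂ U = n → U ≠ ⊥ →
      (∀ s : T, ∀ u ∈ U, φ s u ∈ U) →
      ∃ v ∈ U, v ≠ 0 ∧ ∀ s : T, ∃ c : ℂ, φ s v = c • v := by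
  intro n
  induction n using Nat.strong_induction_on with
  | _ n ih =>
    intro U hfd hn hU hst
    by_cases hsc : ∀ s : T, ∃ c : ℂ, ∀ u ∈ U, φ s u = c • u
    · obtain ⟨v, hvU, hv0⟩ := Submodule.exists_mem_ne_zero_of_ne_bot hU
      exact ⟨v, hvU, hv0, fun s => (hsc s).imp fun c hc => hc v hvU⟩
    · push Not at hsc
      obtain ⟨s, hs⟩ := hsc
      have hnt : Nontrivial U := Submodule.nontrivial_iff_ne_bot.mpr hU
      let g : Module.End ℂ U := (φ s).restrict (hst s)
      obtain ⟨c, hc⟩ := Module.End.exists_eigenvalue g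
      obtain ⟨w, hw⟩ := hc.exists_hasEigenvector
      let U' : Submodule ℂ V := U ⊓ LinearMap.ker (φ s - c • (1 : Module.End ℂ V))
      have hU'le : U' ≤ U := inf_le_left
      have hwmem : (w : V) ∈ U' := by
        refine ⟨w.2, ?_⟩
        have h1 : g w = c • w := hw.apply_eq_smul
        have h2 : φ s (w : V) = c • (w : V) := by
          have := congrArg Subtype.val h1
          simpa [g] using this
        simp [LinearMap.mem_ker, h2]
      have hw0 : (w : V) ≠ 0 := by
        intro h0
        exact hw.2 (Subtype.ext h0)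
      have hU'ne : U' ≠ ⊥ := by
        intro hbot
        apply hw0
        have : (w : V) ∈ (⊥ : Submodule ℂ V) := hbot ▸ hwmem
        simpa using this
      have hU'lt : U' < U := by
        refine lt_of_le_of_ne hU'le ?_
        intro heq
        obtain ⟨u, huU, hu⟩ := hs c
        apply hu
        have : u ∈ U' := heq ▸ huU
        have h3 : u ∈ LinearMap.ker (φ s - c • (1 : Module.End ℂ V)) := this.2
        simp only [LinearMap.mem_ker, LinearMap.sub_apply, LinearMap.smul_apply,
          Module.End.one_apply] at h3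
        exact sub_eq_zero.mp h3
      have hfd' : FiniteDimensional ℂ U' := Submodule.finiteDimensional_of_le hU'le
      have hlt : Module.finrank ℂ U' < n := hn ▸ Submodule.finrank_lt_finrank_of_lt hU'lt
      have hst' : ∀ t : T, ∀ u ∈ U', φ t u ∈ U' := by
        intro t u hu
        refine ⟨hst t u hu.1, ?_⟩
        have h3 : u ∈ LinearMap.ker (φ s - c • (1 : Module.End ℂ V)) := hu.2
        show φ t u ∈ LinearMap.ker (φ s - c • (1 : Module.End ℂ V))
        simp only [LinearMap.mem_ker, LinearMap.sub_apply, LinearMap.smul_apply,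
          Module.End.one_apply] at h3 ⊢
        have hcomm : φ s (φ t u) = φ t (φ s u) := by
          rw [← Module.End.mul_apply, ← Module.End.mul_apply, ← map_mul, ← map_mul, mul_comm]
        rw [hcomm, sub_eq_zero.mp h3, map_smul, sub_self]
      obtain ⟨v, hvU', hv0, hv⟩ := ih _ hlt U' hfd' rfl hU'ne hst'
      exact ⟨v, hU'le hvU', hv0, hv⟩

/-- The eigenvalues of a common eigenvector form a ring homomorphism. -/
theorem exists_character {T V : Type*} [CommRing T] [AddCommGroup V] [Module ℂ V]
    (φ : T →+* Module.End ℂ V) (v : V) (hv : v ≠ 0) (h : ∀ s : T, ∃ c : ℂ, φ s v = c • v) :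
    ∃ χ : T →+* ℂ, ∀ s, φ s v = χ s • v := by
  choose c hc using h
  have inj : Function.Injective (fun x : ℂ => x • v) := smul_left_injective ℂ hv
  refine ⟨{ toFun := c, map_one' := ?_, map_mul' := ?_, map_zero' := ?_, map_add' := ?_ }, hc⟩
  · apply inj
    simp only
    rw [← hc, map_one, one_smul, Module.End.one_apply]
  · intro x y
    apply inj
    simp only
    rw [← hc, map_mul, Module.End.mul_apply, hc y, map_smul, hc x, smul_smul, mul_comm]
  · apply inj
    simp only
    rw [← hc, map_zero, zero_smul, LinearMap.zero_apply]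
  · intro x y
    apply inj
    simp only
    rw [← hc, map_add, LinearMap.add_apply, hc x, hc y, add_smul]

/-- Abstract Deligne--Serre lifting, part one: a commutative ring `T`, finite over `ℤ`, acting
faithfully on a complex vector space, has below any prime ideal the kernel of an eigencharacter. -/
theorem exists_eigen_character_ker_le {T V : Type*} [CommRing T] [Module.Finite ℤ T]
    [AddCommGroup V] [Module ℂ V]
    (φ : T →+* Module.End ℂ V) (hφ : Function.Injective φ) (𝔪 : Ideal T) [𝔪.IsPrime] :
    ∃ (v : V) (χ : T →+* ℂ), v ≠ 0 ∧ (∀ s, φ s v = χ s • v) ∧ RingHom.ker χ ≤ 𝔪 := by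
  have : IsNoetherianRing T := IsNoetherianRing.of_finite ℤ T
  have : Algebra.IsIntegral ℤ T := Algebra.IsIntegral.of_finite ℤ T
  obtain ⟨𝔭, h𝔭min, h𝔭le⟩ := Ideal.exists_minimalPrimes_le (I := (⊥ : Ideal T)) (J := 𝔪) bot_le
  have hann : Module.annihilator T T = ⊥ := Module.annihilator_eq_bot.mpr inferInstance
  have hass : 𝔭 ∈ associatedPrimes T T :=
    Module.associatedPrimes.minimalPrimes_annihilator_subset_associatedPrimes T T (hann ▸ h𝔭min)
  obtain ⟨h𝔭prime, t, ht⟩ := (isAssociatedPrime_iff (R := T) (M := T)).mp hass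
  have ht0 : t ≠ 0 := by
    rintro rfl
    apply h𝔭prime.ne_top
    rw [ht, Ideal.eq_top_iff_one, Submodule.mem_colon_singleton]
    simp
  have hφt : φ t ≠ 0 := by
    intro h0
    exact ht0 (hφ (by rw [h0, map_zero]))
  obtain ⟨g, hg⟩ : ∃ g : V, φ t g ≠ 0 := by
    by_contra hcon
    push Not at hcon
    exact hφt (LinearMap.ext hcon)
  set w : V := φ t g with hw
  -- the span of the orbit of `w`
  obtain ⟨G, hG⟩ := (Module.Finite.fg_top : (⊤ : Submodule ℤ T).FG)
  let U : Submodule ℂ V := Submodule.span ℂ ((fun s : T => φ s w) '' (G : Set T))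
  have hfd : FiniteDimensional ℂ U :=
    FiniteDimensional.span_of_finite ℂ ((Finset.finite_toSet G).image _)
  have horb : ∀ s : T, φ s w ∈ U := by
    intro s
    have hs : s ∈ Submodule.span ℤ (G : Set T) := hG ▸ Submodule.mem_top
    induction hs using Submodule.span_induction with
    | mem x hx => exact Submodule.subset_span ⟨x, hx, rfl⟩
    | zero => simp
    | add x y _ _ hx hy =>
      rw [map_add, LinearMap.add_apply]
      exact U.add_mem hx hy
    | smul a x _ hx =>
      rw [map_zsmul, LinearMap.smul_apply, ← Int.cast_smul_eq_zsmul ℂ]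
      exact U.smul_mem _ hx
  have hwU : w ∈ U := by
    have := horb 1
    simpa using this
  have hU : U ≠ ⊥ := by
    intro hbot
    apply hg
    have : w ∈ (⊥ : Submodule ℂ V) := hbot ▸ hwU
    simpa using this
  have hst : ∀ s : T, ∀ u ∈ U, φ s u ∈ U := by
    intro s u hu
    induction hu using Submodule.span_induction with
    | mem x hx =>
      obtain ⟨r, -, rfl⟩ := hx
      simp only
      rw [← Module.End.mul_apply, ← map_mul]
      exact horb _
    | zero => simp
    | add x y _ _ hx hy =>
      rw [map_add]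
      exact U.add_mem hx hy
    | smul a x _ hx =>
      rw [map_smul]
      exact U.smul_mem _ hx
  have hkill : ∀ x ∈ 𝔭, ∀ u ∈ U, φ x u = 0 := by
    intro x hx u hu
    have hxt : x * t = 0 := by
      rw [ht, Submodule.mem_colon_singleton] at hx
      simpa using hx
    induction hu using Submodule.span_induction with
    | mem y hy =>
      obtain ⟨r, -, rfl⟩ := hy
      simp only
      rw [hw, ← Module.End.mul_apply, ← Module.End.mul_apply, ← map_mul, ← map_mul,
        show x * r * t = r * (x * t) by ring, hxt, mul_zero, map_zero, LinearMap.zero_apply]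
    | zero => simp
    | add y z _ _ hy hz => rw [map_add, hy, hz, add_zero]
    | smul a y _ hy => rw [map_smul, hy, smul_zero]
  obtain ⟨v, hvU, hv0, hv⟩ := exists_common_eigenvector φ _ U hfd rfl hU hst
  obtain ⟨χ, hχ⟩ := exists_character φ v hv0 hv
  refine ⟨v, χ, hv0, hχ, ?_⟩
  have h𝔭ker : 𝔭 ≤ RingHom.ker χ := by
    intro x hx
    rw [RingHom.mem_ker]
    have h1 := hkill x hx v hvU
    rw [hχ] at h1
    exact (smul_eq_zero.mp h1).resolve_right hv0
  have hkereq : RingHom.ker χ ≤ 𝔭 := by
    by_contra hnot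
    obtain ⟨x, hxker, hx𝔭⟩ := Set.not_subset.mp hnot
    have hlt := Ideal.comap_lt_comap_of_integral_mem_sdiff (R := ℤ) h𝔭ker
      (x := x) ⟨hxker, hx𝔭⟩ (Algebra.IsIntegral.isIntegral x)
    have hbot : Ideal.comap (algebraMap ℤ T) (RingHom.ker χ) = ⊥ := by
      rw [eq_bot_iff]
      intro n hn
      rw [Ideal.mem_comap, RingHom.mem_ker] at hn
      have : (n : ℂ) = 0 := by simpa using hn
      simpa using this
    rw [hbot] at hlt
    exact not_lt_bot hlt
  exact hkereq.trans h𝔭le

/-- Abstract Deligne--Serre lifting, part two: lying over. -/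
theorem exists_maximal_over {T : Type*} [CommRing T] [Module.Finite ℤ T] (χ : T →+* ℂ)
    (𝔪 : Ideal T) [𝔪.IsPrime] (hker : RingHom.ker χ ≤ 𝔪) :
    ∃ (χ' : T →+* integralClosure ℤ ℂ) (𝔪' : Ideal (integralClosure ℤ ℂ)),
      (∀ t, (χ' t : ℂ) = χ t) ∧ 𝔪'.IsMaximal ∧ ∀ t ∈ 𝔪, χ' t ∈ 𝔪' := by
  have : Algebra.IsIntegral ℤ T := Algebra.IsIntegral.of_finite ℤ T
  have hint : ∀ t : T, χ t ∈ integralClosure ℤ ℂ := fun t =>
    map_isIntegral_int χ (Algebra.IsIntegral.isIntegral t)
  let χ' : T →+* integralClosure ℤ ℂ := χ.codRestrict (integralClosure ℤ ℂ) hint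
  have hχ' : ∀ t, (χ' t : ℂ) = χ t := fun t => rfl
  let _ : Algebra T (integralClosure ℤ ℂ) := χ'.toAlgebra
  have : Algebra.IsIntegral T (integralClosure ℤ ℂ) := by
    constructor
    intro x
    have hx : IsIntegral ℤ x := Algebra.IsIntegral.isIntegral x
    exact hx.tower_top
  have hker' : Ideal.comap (algebraMap T (integralClosure ℤ ℂ)) ⊥ ≤ 𝔪 := by
    intro t ht
    apply hker
    rw [RingHom.mem_ker, ← hχ']
    have h0 : (algebraMap T (integralClosure ℤ ℂ)) t = 0 := by simpa using ht
    have : χ' t = 0 := h0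
    rw [this]; rfl
  obtain ⟨Q, -, hQprime, hQ⟩ := Ideal.exists_ideal_over_prime_of_isIntegral 𝔪
    (⊥ : Ideal (integralClosure ℤ ℂ)) hker'
  obtain ⟨𝔪', hmax, hle⟩ := Ideal.exists_le_maximal Q hQprime.ne_top
  refine ⟨χ', 𝔪', hχ', hmax, fun t ht => hle ?_⟩
  have : t ∈ Ideal.comap (algebraMap T (integralClosure ℤ ℂ)) Q := hQ ▸ ht
  exact this

end Fermat.Agent.S49
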