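import Mathlib
import Fermat.Prelude.Def_FormalHecke_Eigensystem

set_option autoImplicit false

namespace Fermat.Agent.S49

open FormalHecke

variable {R : Type*} [CommRing R]

/-- Coprime multiplicativity of a formal Hecke eigensystem. -/
theorem eigensystem_mul_of_coprime {e a : ℕ → R} (h : IsEigensystem e a) :
    ∀ m n : ℕ, m.Coprime n → a (m * n) = a m * a n := by
  obtain ⟨h1, hrec⟩ := h
  intro m
  induction m using Nat.strong_induction_on with
  | _ m ih =>
    intro n hmn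
    rcases Nat.eq_zero_or_pos m with rfl | hmpos
    · have hn : n = 1 := by simpa using hmn
      subst hn
      simp [h1]
    rcases Nat.lt_or_ge 1 m with hm1 | hm1
    swap
    · have : m = 1 := by omega
      subst this
      simp [h1]
    obtain ⟨ℓ, hℓ, m', rfl⟩ : ∃ ℓ : ℕ, ℓ.Prime ∧ ∃ m', m = ℓ * m' := by
      obtain ⟨ℓ, hℓ, hd⟩ := Nat.exists_prime_and_dvd (n := m) (by omega)
      exact ⟨ℓ, hℓ, hd⟩
    have hm'pos : 0 < m' := Nat.pos_of_ne_zero (by rintro rfl; simp at hmpos)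
    have hm'lt : m' < ℓ * m' := by
      have := hℓ.two_le
      nlinarith
    have hcop' : m'.Coprime n := Nat.Coprime.coprime_mul_left hmn
    have hℓn : ¬ ℓ ∣ n := by
      intro hd
      have hc : ℓ.Coprime n := Nat.Coprime.coprime_mul_right hmn
      have : ℓ ∣ 1 := by
        have := Nat.dvd_gcd (dvd_refl ℓ) hd
        rwa [hc] at this
      exact hℓ.one_lt.ne' (Nat.dvd_one.mp this)
    have e1 := hrec ℓ hℓ (m' * n)
    have e2 := hrec ℓ hℓ m'
    have ihm' := ih m' hm'lt n hcop'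
    by_cases hd : ℓ ∣ m'
    · obtain ⟨m'', rfl⟩ := hd
      have hm''pos : 0 < m'' := Nat.pos_of_ne_zero (by rintro rfl; simp at hm'pos)
      have hm''lt : m'' < ℓ * (ℓ * m'') := by
        have := hℓ.two_le
        nlinarith
      have hcop'' : m''.Coprime n := Nat.Coprime.coprime_mul_left hcop'
      have ihm'' := ih m'' hm''lt n hcop''
      have hd1 : ℓ ∣ ℓ * m'' * n := ⟨m'' * n, by ring⟩
      have hd2 : ℓ ∣ ℓ * m'' := ⟨m'', rfl⟩
      rw [if_pos hd1] at e1
      rw [if_pos hd2] at e2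
      have q1 : ℓ * m'' * n / ℓ = m'' * n := by
        rw [mul_assoc]; exact Nat.mul_div_cancel_left _ hℓ.pos
      have q2 : ℓ * m'' / ℓ = m'' := Nat.mul_div_cancel_left _ hℓ.pos
      rw [q1, ihm'', ihm'] at e1
      rw [q2] at e2
      have e1' : a (ℓ * (ℓ * m'') * n) = a (ℓ * (ℓ * m'' * n)) := by
        congr 1; ring
      rw [e1']
      linear_combination e1 - a n * e2
    · have hd1 : ¬ ℓ ∣ m' * n := by
        intro hdd
        rcases (Nat.Prime.dvd_mul hℓ).mp hdd with h' | h'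
        · exact hd h'
        · exact hℓn h'
      rw [if_neg hd1] at e1
      rw [if_neg hd] at e2
      rw [ihm'] at e1
      have e1' : a (ℓ * m' * n) = a (ℓ * (m' * n)) := by
        congr 1; ring
      rw [e1']
      linear_combination e1 - a n * e2

/-- Prime power recursion of a formal Hecke eigensystem. -/
theorem eigensystem_prime_pow {e a : ℕ → R} (h : IsEigensystem e a) (ℓ r : ℕ) (hℓ : ℓ.Prime) :
    a (ℓ ^ (r + 2)) = a ℓ * a (ℓ ^ (r + 1)) - e ℓ * a (ℓ ^ r) := by
  obtain ⟨-, hrec⟩ := h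
  have e1 := hrec ℓ hℓ (ℓ ^ (r + 1))
  have hd : ℓ ∣ ℓ ^ (r + 1) := dvd_pow_self ℓ (by omega)
  rw [if_pos hd] at e1
  have q : ℓ ^ (r + 1) / ℓ = ℓ ^ r := by
    rw [pow_succ]; exact Nat.mul_div_cancel _ hℓ.pos
  rw [q] at e1
  have e2 : ℓ ^ (r + 2) = ℓ * ℓ ^ (r + 1) := by ring
  rw [e2]
  linear_combination e1

/-- If a sequence satisfies the Hecke relations (with arbitrary eigenvalues) and its first
coefficient vanishes, then all the positive-index coefficients vanish. -/
theorem coeff_eq_zero_of_one_eq_zero {e c : ℕ → R}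
    (hrec : ∀ ℓ : ℕ, ℓ.Prime → ∃ lam : R, ∀ n : ℕ,
      c (ℓ * n) + e ℓ * (if ℓ ∣ n then c (n / ℓ) else 0) = lam * c n)
    (h1 : c 1 = 0) : ∀ n : ℕ, 0 < n → c n = 0 := by
  intro n
  induction n using Nat.strong_induction_on with
  | _ n ih =>
    intro hn
    rcases Nat.lt_or_ge 1 n with hn1 | hn1
    swap
    · have : n = 1 := by omega
      subst this
      exact h1
    obtain ⟨ℓ, hℓ, m, rfl⟩ : ∃ ℓ : ℕ, ℓ.Prime ∧ ∃ m, n = ℓ * m := by
      obtain ⟨ℓ, hℓ, hd⟩ := Nat.exists_prime_and_dvd (n := n) (by omega)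
      exact ⟨ℓ, hℓ, hd⟩
    have hmpos : 0 < m := Nat.pos_of_ne_zero (by rintro rfl; simp at hn)
    have hmlt : m < ℓ * m := by
      have := hℓ.two_le
      nlinarith
    obtain ⟨lam, hlam⟩ := hrec ℓ hℓ
    have e1 := hlam m
    rw [ih m hmlt hmpos] at e1
    by_cases hd : ℓ ∣ m
    · obtain ⟨m', rfl⟩ := hd
      have hm'pos : 0 < m' := Nat.pos_of_ne_zero (by rintro rfl; simp at hmpos)
      have hm'lt : m' < ℓ * (ℓ * m') := by
        have := hℓ.two_le
        nlinarith
      rw [if_pos ⟨m', rfl⟩, Nat.mul_div_cancel_left _ hℓ.pos, ih m' hm'lt hm'pos] at e1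
      simpa using e1
    · rw [if_neg hd] at e1
      simpa using e1

/-- Normalising a sequence satisfying the Hecke relations gives a formal eigensystem. -/
theorem normalized_eigensystem {K : Type*} [Field K] {e c : ℕ → K}
    (hrec : ∀ ℓ : ℕ, ℓ.Prime → ∃ lam : K, ∀ n : ℕ,
      c (ℓ * n) + e ℓ * (if ℓ ∣ n then c (n / ℓ) else 0) = lam * c n)
    (h1 : c 1 ≠ 0) : IsEigensystem e (fun n => (c 1)⁻¹ * c n) := by
  refine ⟨inv_mul_cancel₀ h1, fun ℓ hℓ n => ?_⟩
  obtain ⟨lam, hlam⟩ := hrec ℓ hℓ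
  have hl1 := hlam 1
  have hnd : ¬ ℓ ∣ 1 := fun hd => hℓ.one_lt.ne' (Nat.dvd_one.mp hd)
  rw [if_neg hnd, mul_zero, add_zero, mul_one] at hl1
  have hn := hlam n
  simp only
  rw [hl1]
  split_ifs at hn ⊢ with hd
  · field_simp
    linear_combination hn
  · field_simp
    linear_combination hn

end Fermat.Agent.S49
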